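import Mathlib
import Fermat.Prelude.Def_ModularCurve_PeriodMap
import Fermat.Agent.S22.CocycleFG

/-!
# S41 / C2 [ES-EQUIV] (B) [LATTICE]  (helper20, second seat of helper52)

Integral parabolic homomorphisms span the complex ones.

* `exists_int_decomposition` : generic core.  For a finitely generated group `Γ`, a subset `P ⊆ Γ`
  and a hom `φ : Additive Γ →+ ℂ` killing `P`, `φ` is a finite `ℂ`-combination of `ℤ`-valued homs
  killing `P`.
* `span_int_parabolicHoms` : for a finitely generated `Γ ≤ SL(2,ℤ)`, the `ℂ`-span of the (casts of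
  the) `ℤ`-valued parabolic homs is the space of `ℂ`-valued parabolic homs.
* `span_int_parabolicHoms_gamma0` : the instance `Γ = Γ₀(N)`.
-/

set_option autoImplicit false

namespace Fermat.Agent.S41.ESLattice20

open scoped MatrixGroups

section Generic

variable {Γ : Type*} [Group Γ]

/-- values of a hom on a group lie in the `ℚ`-span of the values on a generating set -/
theorem hom_mem_span_of_closure (S : Set Γ) (hS : Subgroup.closure S = ⊤)
    (φ : Additive Γ →+ ℂ) (γ : Γ) :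
    φ (Additive.ofMul γ) ∈ Submodule.span ℚ ((fun s : Γ => φ (Additive.ofMul s)) '' S) := by
  set W : Submodule ℚ ℂ := Submodule.span ℚ ((fun s : Γ => φ (Additive.ofMul s)) '' S) with hW
  have hγ : γ ∈ Subgroup.closure S := by rw [hS]; trivial
  induction hγ using Subgroup.closure_induction with
  | mem s hs => exact Submodule.subset_span ⟨s, hs, rfl⟩
  | one =>
    have : φ (Additive.ofMul (1 : Γ)) = 0 := map_zero φ
    rw [this]; exact W.zero_mem
  | mul x y _ _ hx hy =>
    have : φ (Additive.ofMul (x * y)) = φ (Additive.ofMul x) + φ (Additive.ofMul y) :=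
      map_add φ (Additive.ofMul x) (Additive.ofMul y)
    rw [this]; exact W.add_mem hx hy
  | inv x _ hx =>
    have : φ (Additive.ofMul x⁻¹) = - φ (Additive.ofMul x) :=
      map_neg φ (Additive.ofMul x)
    rw [this]; exact W.neg_mem hx

/-- a `ℚ`-valued hom on a finitely generated group has bounded denominators -/
theorem exists_den_of_closure (S : Finset Γ) (hS : Subgroup.closure (S : Set Γ) = ⊤)
    (χ : Additive Γ →+ ℚ) :
    ∃ d : ℕ, 0 < d ∧ ∀ γ : Γ, ∃ n : ℤ, (d : ℚ) * χ (Additive.ofMul γ) = n := by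
  classical
  refine ⟨∏ s ∈ S, (χ (Additive.ofMul s)).den, ?_, ?_⟩
  · exact Finset.prod_pos fun s _ => Rat.den_pos _
  · intro γ
    set d : ℕ := ∏ s ∈ S, (χ (Additive.ofMul s)).den with hd
    have hγ : γ ∈ Subgroup.closure (S : Set Γ) := by rw [hS]; trivial
    induction hγ using Subgroup.closure_induction with
    | mem s hs =>
      have hdvd : (χ (Additive.ofMul s)).den ∣ d :=
        Finset.dvd_prod_of_mem (fun s => (χ (Additive.ofMul s)).den) hs
      obtain ⟨m, hm⟩ := hdvd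
      refine ⟨(m : ℤ) * (χ (Additive.ofMul s)).num, ?_⟩
      have h1 : χ (Additive.ofMul s) * ((χ (Additive.ofMul s)).den : ℚ) =
          ((χ (Additive.ofMul s)).num : ℚ) := Rat.mul_den_eq_num _
      rw [hm]
      push_cast
      rw [← h1]; ring
    | one =>
      refine ⟨0, ?_⟩
      have : χ (Additive.ofMul (1 : Γ)) = 0 := map_zero χ
      rw [this]; simp
    | mul x y _ _ hx hy =>
      obtain ⟨a, ha⟩ := hx
      obtain ⟨b, hb⟩ := hy
      refine ⟨a + b, ?_⟩
      have : χ (Additive.ofMul (x * y)) = χ (Additive.ofMul x) + χ (Additive.ofMul y) :=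
        map_add χ (Additive.ofMul x) (Additive.ofMul y)
      rw [this, mul_add, ha, hb]; push_cast; ring
    | inv x _ hx =>
      obtain ⟨a, ha⟩ := hx
      refine ⟨-a, ?_⟩
      have : χ (Additive.ofMul x⁻¹) = - χ (Additive.ofMul x) :=
        map_neg χ (Additive.ofMul x)
      rw [this, mul_neg, ha]; push_cast; ring

/-- an integer multiple of a `ℚ`-valued hom with integral values is the cast of a `ℤ`-valued hom -/
theorem exists_int_hom (χ : Additive Γ →+ ℚ) (d : ℕ)
    (h : ∀ γ : Γ, ∃ n : ℤ, (d : ℚ) * χ (Additive.ofMul γ) = n) :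
    ∃ ψ : Additive Γ →+ ℤ, ∀ γ : Γ, ((ψ (Additive.ofMul γ) : ℤ) : ℚ) = (d : ℚ) * χ (Additive.ofMul γ) := by
  classical
  choose n hn using h
  have hinj : Function.Injective (Int.cast : ℤ → ℚ) := Int.cast_injective
  refine ⟨{ toFun := fun γ => n (Additive.toMul γ)
            map_zero' := ?_
            map_add' := ?_ }, ?_⟩
  · apply hinj
    have h1 := hn (1 : Γ)
    have : χ (Additive.ofMul (1 : Γ)) = 0 := map_zero χ
    rw [this, mul_zero] at h1
    show ((n (Additive.toMul (0 : Additive Γ)) : ℤ) : ℚ) = ((0 : ℤ) : ℚ)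
    rw [Int.cast_zero]
    exact h1.symm
  · intro a b
    apply hinj
    show ((n (Additive.toMul (a + b)) : ℤ) : ℚ) = ((n (Additive.toMul a) + n (Additive.toMul b) : ℤ) : ℚ)
    have h1 := hn (Additive.toMul a * Additive.toMul b)
    have h2 := hn (Additive.toMul a)
    have h3 := hn (Additive.toMul b)
    have hadd : χ (Additive.ofMul (Additive.toMul a * Additive.toMul b)) =
        χ (Additive.ofMul (Additive.toMul a)) + χ (Additive.ofMul (Additive.toMul b)) :=
      map_add χ (Additive.ofMul (Additive.toMul a)) (Additive.ofMul (Additive.toMul b))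
    rw [Int.cast_add, ← h2, ← h3, ← mul_add, ← hadd]
    exact h1.symm
  · intro γ
    exact (hn γ).symm

/-- **Generic core.** On a finitely generated group, a `ℂ`-valued hom killing a set `P` is a finite
`ℂ`-linear combination of `ℤ`-valued homs killing `P`. -/
theorem exists_int_decomposition (hfg : Group.FG Γ) (P : Set Γ)
    (φ : Additive Γ →+ ℂ) (hφ : ∀ γ ∈ P, φ (Additive.ofMul γ) = 0) :
    ∃ (k : ℕ) (c : Fin k → ℂ) (ψ : Fin k → (Additive Γ →+ ℤ)),
      (∀ j, ∀ γ ∈ P, ψ j (Additive.ofMul γ) = 0) ∧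
      φ = ∑ j, c j • (Int.castAddHom ℂ).comp (ψ j) := by
  classical
  obtain ⟨_, S, -, hS⟩ := Group.fg_iff'.mp hfg
  -- the `ℚ`-span of the values on generators
  set W : Submodule ℚ ℂ :=
    Submodule.span ℚ ((fun s : Γ => φ (Additive.ofMul s)) '' (S : Set Γ)) with hWdef
  have hWfg : W.FG := Submodule.fg_span ((S.finite_toSet).image _)
  have : Module.Finite ℚ W := Module.Finite.iff_fg.mpr hWfg
  have hW : ∀ γ : Γ, φ (Additive.ofMul γ) ∈ W := hom_mem_span_of_closure (S : Set Γ) hS φ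
  set k := Module.finrank ℚ W with hk
  let b : Module.Basis (Fin k) ℚ W := Module.finBasis ℚ W
  -- `φ` with values in `W`
  let φW : Additive Γ →+ W :=
    { toFun := fun γ => ⟨φ γ, hW (Additive.toMul γ)⟩
      map_zero' := Subtype.ext (map_zero φ)
      map_add' := fun a b => Subtype.ext (map_add φ a b) }
  -- coordinates
  let χ : Fin k → (Additive Γ →+ ℚ) := fun j => ((b.coord j : W →ₗ[ℚ] ℚ).toAddMonoidHom).comp φW
  have hχ : ∀ j (γ : Γ), χ j (Additive.ofMul γ) = b.repr (φW (Additive.ofMul γ)) j := fun j γ => rfl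
  have hsum : ∀ γ : Γ, φ (Additive.ofMul γ) = ∑ j, ((χ j (Additive.ofMul γ) : ℚ) : ℂ) * (b j : ℂ) := by
    intro γ
    have h1 := b.sum_repr (φW (Additive.ofMul γ))
    have h2 := congrArg (fun w : W => (w : ℂ)) h1
    simp only [Submodule.coe_sum, Submodule.coe_smul] at h2
    have h3 : ((φW (Additive.ofMul γ) : W) : ℂ) = φ (Additive.ofMul γ) := rfl
    rw [h3] at h2
    rw [← h2]
    refine Finset.sum_congr rfl fun j _ => ?_
    rw [hχ]
    rfl
  -- denominators
  have hden : ∀ j, ∃ d : ℕ, 0 < d ∧ ∀ γ : Γ, ∃ n : ℤ, (d : ℚ) * χ j (Additive.ofMul γ) = n :=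
    fun j => exists_den_of_closure S hS (χ j)
  choose d hdpos hdint using hden
  have hψ : ∀ j, ∃ ψ : Additive Γ →+ ℤ, ∀ γ : Γ,
      ((ψ (Additive.ofMul γ) : ℤ) : ℚ) = (d j : ℚ) * χ j (Additive.ofMul γ) :=
    fun j => exists_int_hom (χ j) (d j) (hdint j)
  choose ψ hψ using hψ
  refine ⟨k, fun j => (b j : ℂ) / (d j : ℂ), ψ, ?_, ?_⟩
  · intro j γ hγ
    have h0 : φW (Additive.ofMul γ) = 0 := Subtype.ext (hφ γ hγ)
    have h1 : χ j (Additive.ofMul γ) = 0 := by rw [hχ, h0]; simp
    have h2 := hψ j γ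
    rw [h1, mul_zero] at h2
    exact_mod_cast h2
  · apply AddMonoidHom.ext
    intro a
    obtain ⟨γ, rfl⟩ : ∃ γ : Γ, Additive.ofMul γ = a := ⟨Additive.toMul a, rfl⟩
    rw [hsum γ]
    simp only [AddMonoidHom.finsetSum_apply, AddMonoidHom.smul_apply, AddMonoidHom.comp_apply,
      Int.coe_castAddHom, smul_eq_mul]
    refine Finset.sum_congr rfl fun j _ => ?_
    have h2 := hψ j γ
    have h3 : ((ψ j (Additive.ofMul γ) : ℤ) : ℂ) = ((d j : ℚ) : ℂ) * ((χ j (Additive.ofMul γ) : ℚ) : ℂ) := by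
      have := congrArg (fun q : ℚ => (q : ℂ)) h2
      simpa using this
    rw [h3]
    have hd0 : ((d j : ℚ) : ℂ) ≠ 0 := by
      have : (d j : ℚ) ≠ 0 := by exact_mod_cast (hdpos j).ne'
      exact_mod_cast this
    have hd1 : ((d j : ℕ) : ℂ) = ((d j : ℚ) : ℂ) := by push_cast; rfl
    rw [hd1]
    field_simp

end Generic

section Parabolic

open ModularCurve.Period

/-- **[LATTICE]**: integral parabolic homs span the complex parabolic homs. -/
theorem span_int_parabolicHoms (Γ : Subgroup SL(2, ℤ)) (hfg : Group.FG Γ) :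
    Submodule.span ℂ {ψ : Additive Γ →+ ℂ | ∃ ψ₀ ∈ parabolicHoms ℤ Γ ℤ,
      ψ = (Int.castAddHom ℂ).comp ψ₀} = parabolicHoms ℂ Γ ℂ := by
  apply le_antisymm
  · rw [Submodule.span_le]
    rintro ψ ⟨ψ₀, hψ₀, rfl⟩
    intro γ hγ
    have h0 : ψ₀ (Additive.ofMul γ) = 0 := hψ₀ γ hγ
    show ((ψ₀ (Additive.ofMul γ) : ℤ) : ℂ) = 0
    rw [h0, Int.cast_zero]
  · intro φ hφ
    obtain ⟨k, c, ψ, hψP, hφeq⟩ := exists_int_decomposition hfg
      {γ : Γ | ((γ : SL(2, ℤ)) : Matrix (Fin 2) (Fin 2) ℤ).trace ^ 2 = 4} φ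
      (fun γ hγ => hφ γ hγ)
    rw [hφeq]
    refine Submodule.sum_mem _ fun j _ => Submodule.smul_mem _ _ (Submodule.subset_span ?_)
    exact ⟨ψ j, fun γ hγ => hψP j γ hγ, rfl⟩

/-- the instance `Γ = Γ₀(N)` -/
theorem span_int_parabolicHoms_gamma0 (N : ℕ) [NeZero N] :
    Submodule.span ℂ {ψ : Additive (CongruenceSubgroup.Gamma0 N) →+ ℂ |
      ∃ ψ₀ ∈ parabolicHoms ℤ (CongruenceSubgroup.Gamma0 N) ℤ,
        ψ = (Int.castAddHom ℂ).comp ψ₀} = parabolicHoms ℂ (CongruenceSubgroup.Gamma0 N) ℂ :=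
  span_int_parabolicHoms _ (Fermat.Agent.S22.gamma0_fg N)

end Parabolic

end Fermat.Agent.S41.ESLattice20
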